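import Mathlib
import Fermat.Prelude.Def_CuspForm_HeckeAlgebra
import Fermat.Prelude.Def_CuspForm_IntegralStructure
import Fermat.Prelude.Thm_CuspForm_mem_intLattice_of_mem_heckeAlgebra
import Fermat.Prelude.Thm_CuspForm_intLattice_fg
import Fermat.Prelude.Thm_ModularFormClass_qCoeff_heckeT
import Fermat.Prelude.Thm_ModularFormClass_qCoeff_heckeU
import Fermat.Prelude.Thm_CongruenceSubgroup_one_mem_strictPeriods_Gamma0
import Fermat.Prelude.Thm_ModularForm_sturm_bound_Gamma0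
import Fermat.Prelude.Def_CuspForm_HeckeLocal

set_option autoImplicit false

/-!
# q-coefficients as linear functionals, and finite-dimensionality of spaces of cusp forms

Everything is for `CuspForm (Gamma0 N) k`.
-/

noncomputable section

open CongruenceSubgroup ModularFormClass UpperHalfPlane

namespace Fermat.Agent.DSLift

variable {N : ℕ} {k : ℤ}

/-- The `n`-th q-coefficient as a `ℂ`-linear functional on cusp forms for `Γ₀(N)`. -/
def qCoeffLin (N : ℕ) (k : ℤ) (n : ℕ) : CuspForm (Gamma0 N) k →ₗ[ℂ] ℂ where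
  toFun f := qCoeff f n
  map_add' f g := P2MW.S_CuspForm_intLattice_fg.W3WsD.qCoeff_add f g n
  map_smul' c f := by
    have h1 : ⇑(c • f) = c • ⇑f := by
      ext z; simp
    simp only [qCoeff, h1]
    rw [ModularForm.qExpansion_smul one_pos (P2MW.S_CuspForm_intLattice_fg.W3WsD.hΓ N) c f]
    simp

@[simp] lemma qCoeffLin_apply (n : ℕ) (f : CuspForm (Gamma0 N) k) :
    qCoeffLin N k n f = qCoeff f n := rfl

lemma qCoeff_zero_eq (f : CuspForm (Gamma0 N) k) : qCoeff f 0 = 0 := by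
  have h := CuspFormClass.qExpansion_coeff_zero (h := 1) f one_pos
    (P2MW.S_CuspForm_intLattice_fg.W3WsD.hΓ N)
  exact h

/-- A cusp form is determined by its q-coefficients. -/
lemma eq_zero_of_qCoeff_eq_zero [NeZero N] {f : CuspForm (Gamma0 N) k}
    (h : ∀ n, qCoeff f n = 0) : f = 0 := by
  apply P2MW.S_CuspForm_intLattice_fg.W3WsD.trunc_injective N k
  funext i
  show qCoeff f i = qCoeff (0 : CuspForm (Gamma0 N) k) i
  rw [h, P2MW.S_CuspForm_intLattice_fg.W3WsD.qCoeff_zero']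

lemma ext_qCoeff [NeZero N] {f g : CuspForm (Gamma0 N) k}
    (h : ∀ n, qCoeff f n = qCoeff g n) : f = g := by
  rw [← sub_eq_zero]
  apply eq_zero_of_qCoeff_eq_zero
  intro n
  have := map_sub (qCoeffLin N k n) f g
  simp only [qCoeffLin_apply] at this
  rw [this, h n, sub_self]

/-- The truncated q-expansion as a `ℂ`-linear map. -/
def truncLin (N : ℕ) (k : ℤ) :
    CuspForm (Gamma0 N) k →ₗ[ℂ]
      (Fin (P2MW.S_CuspForm_intLattice_fg.W3WsD.sturmB N k + 1) → ℂ) :=
  LinearMap.pi fun i => qCoeffLin N k i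

lemma truncLin_injective (N : ℕ) [NeZero N] (k : ℤ) : Function.Injective (truncLin N k) :=
  fun _ _ h => P2MW.S_CuspForm_intLattice_fg.W3WsD.trunc_injective N k h

instance finiteDimensional_cuspForm (N : ℕ) [NeZero N] (k : ℤ) :
    FiniteDimensional ℂ (CuspForm (Gamma0 N) k) :=
  FiniteDimensional.of_injective (truncLin N k) (truncLin_injective N k)

lemma qCoeff_heckeTLin {p : ℕ} (hp : p.Prime) (hpN : ¬ p ∣ N)
    (f : CuspForm (Gamma0 N) k) (n : ℕ) :
    qCoeff (CuspForm.heckeTLin k hp hpN f) n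
      = qCoeff f (n * p) + if p ∣ n then (p : ℂ) ^ (k - 1) * qCoeff f (n / p) else 0 := by
  rw [CuspForm.coe_heckeTLin_apply]
  exact ModularFormClass.qCoeff_heckeT f (P2MW.S_CuspForm_intLattice_fg.W3WsD.hΓ N)
    hp.ne_zero n

lemma qCoeff_heckeULin [NeZero N] {p : ℕ} (hp : p.Prime) (hpN : p ∣ N)
    (f : CuspForm (Gamma0 N) k) (n : ℕ) :
    qCoeff (CuspForm.heckeULin k hpN f) n = qCoeff f (n * p) := by
  rw [CuspForm.coe_heckeULin_apply]
  exact ModularFormClass.qCoeff_heckeU f (P2MW.S_CuspForm_intLattice_fg.W3WsD.hΓ N)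
    hp.ne_zero n

/-- The Hecke operator `T_p` (`p ∤ N`) or `U_p` (`p ∣ N`). -/
def heckeOp (N : ℕ) [NeZero N] (k : ℤ) {p : ℕ} (hp : p.Prime) :
    Module.End ℂ (CuspForm (Gamma0 N) k) :=
  if h : p ∣ N then CuspForm.heckeULin k h else CuspForm.heckeTLin k hp h

lemma heckeOp_of_dvd [NeZero N] {p : ℕ} (hp : p.Prime) (h : p ∣ N) :
    heckeOp N k hp = CuspForm.heckeULin k h := dif_pos h

lemma heckeOp_of_not_dvd [NeZero N] {p : ℕ} (hp : p.Prime) (h : ¬ p ∣ N) :
    heckeOp N k hp = CuspForm.heckeTLin k hp h := dif_neg h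

lemma heckeOp_mem_heckeGenerators [NeZero N] {p : ℕ} (hp : p.Prime) {S : Set ℕ} (hpS : p ∉ S) :
    heckeOp N k hp ∈ CuspForm.heckeGenerators N k S := by
  unfold heckeOp
  split_ifs with h
  · exact CuspForm.heckeULin_mem_heckeGenerators hp h hpS
  · exact CuspForm.heckeTLin_mem_heckeGenerators hp h hpS

/-- Uniform coefficient formula (weight `k`). -/
lemma qCoeff_heckeOp [NeZero N] {p : ℕ} (hp : p.Prime) (f : CuspForm (Gamma0 N) k) (n : ℕ) :
    qCoeff (heckeOp N k hp f) n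
      = qCoeff f (n * p) +
        (if p ∣ N then 0 else (p : ℂ) ^ (k - 1)) * (if p ∣ n then qCoeff f (n / p) else 0) := by
  by_cases h : p ∣ N
  · rw [heckeOp_of_dvd hp h, qCoeff_heckeULin hp h, if_pos h, zero_mul, add_zero]
  · rw [heckeOp_of_not_dvd hp h, qCoeff_heckeTLin hp h, if_neg h, mul_ite, mul_zero]

lemma mem_intLattice_iff (f : CuspForm (Gamma0 N) k) :
    f ∈ CuspForm.intLattice N k ↔ ∀ n : ℕ, ∃ m : ℤ, qCoeff f n = (m : ℂ) :=
  P2MW.S_CuspForm_intLattice_fg.W3WsD.mem_intLattice_iff f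

end Fermat.Agent.DSLift
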