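import Fermat.Agent.DSLift.Lifting
import Fermat.Prelude.Def_CuspForm_IntegralLattice

set_option autoImplicit false

/-!
# Finiteness of the weight 2 Hecke algebra from an integral structure
-/

noncomputable section

open CongruenceSubgroup ModularFormClass UpperHalfPlane CuspForm

namespace Fermat.Agent.DSLift

/-- If `S_2(Γ₀(N))` has an integral structure, then the Hecke algebra is a finite `ℤ`-module. -/
theorem moduleFinite_heckeAlgebra_of_hasIntegralStructure (N : ℕ) [NeZero N] (S : Set ℕ)
    (hint : HasIntegralStructure N 2) : Module.Finite ℤ (heckeAlgebra N 2 S) :=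
  Module.Finite.of_injective (latticeRestrictHom N S).toLinearMap
    (latticeRestrictHom_bijective N S hint).1

theorem hasIntegralStructure_of_hasIntegralBasis (N : ℕ) (h : HasIntegralBasis N) :
    HasIntegralStructure N 2 := by
  unfold HasIntegralStructure
  rw [eq_top_iff, ← h, Submodule.span_le]
  intro f hf
  refine Submodule.subset_span ?_
  show f ∈ intLattice N 2
  rw [mem_intLattice_iff]
  intro n
  obtain ⟨m, hm⟩ := Subring.mem_bot.mp (hf n)
  exact ⟨m, hm.symm⟩

theorem hasIntegralBasis_of_hasIntegralStructure (N : ℕ) (h : HasIntegralStructure N 2) :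
    HasIntegralBasis N := by
  unfold HasIntegralBasis
  rw [eq_top_iff, ← h, Submodule.span_le]
  intro f hf
  refine Submodule.subset_span fun n => ?_
  obtain ⟨m, hm⟩ := (mem_intLattice_iff f).mp hf n
  exact Subring.mem_bot.mpr ⟨m, hm.symm⟩

end Fermat.Agent.DSLift
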