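import Fermat.Agent.DSLift.Duality

set_option autoImplicit false

/-!
# Deligne–Serre lifting

Every maximal ideal of the integral Hecke algebra `heckeAlgebra N 2 ∅` is the reduction of a
normalised eigenform.
-/

noncomputable section

open CongruenceSubgroup ModularFormClass UpperHalfPlane CuspForm

namespace Fermat.Agent.DSLift

variable (N : ℕ) [NeZero N]

/-- If `T ⧸ Q` is a domain for a finite dimensional commutative `ℂ`-algebra `T`, it is `ℂ`. -/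
lemma exists_algHom_of_isPrime {T : Type*} [CommRing T] [Algebra ℂ T] [FiniteDimensional ℂ T]
    (Q : Ideal T) [hQ : Q.IsPrime] : ∃ Ψ : T →ₐ[ℂ] ℂ, RingHom.ker Ψ = Q := by
  haveI : IsDomain (T ⧸ Q) := Ideal.Quotient.isDomain Q
  have hbij : Function.Bijective (algebraMap ℂ (T ⧸ Q)) :=
    IsAlgClosed.algebraMap_bijective_of_isIntegral
  let e : ℂ ≃ₐ[ℂ] (T ⧸ Q) := AlgEquiv.ofBijective (Algebra.ofId ℂ (T ⧸ Q)) hbij
  refine ⟨(e.symm : (T ⧸ Q) →ₐ[ℂ] ℂ).comp (Ideal.Quotient.mkₐ ℂ Q), ?_⟩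
  ext x
  rw [RingHom.mem_ker]
  show e.symm (Ideal.Quotient.mk Q x) = 0 ↔ _
  rw [map_eq_zero_iff _ e.symm.injective, Ideal.Quotient.eq_zero_iff_mem]

/-- The Hecke operator `T_p`/`U_p` as an element of the integral Hecke algebra. -/
def heckeElt (k : ℤ) {p : ℕ} (hp : p.Prime) : heckeAlgebra N k ∅ :=
  ⟨heckeOp N k hp, Algebra.subset_adjoin (heckeOp_mem_heckeGenerators hp (Set.notMem_empty _))⟩

/-- For every minimal prime `𝔭` of the integral Hecke algebra there is a character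
`Ψ` of the complex Hecke algebra with `Ψ⁻¹(0) ∩ 𝕋 = 𝔭`. -/
lemma exists_algHom_comap_eq (k : ℤ) (𝔭 : Ideal (heckeAlgebra N k ∅))
    (h𝔭 : 𝔭 ∈ minimalPrimes (heckeAlgebra N k ∅)) :
    ∃ Ψ : heckeC N k →ₐ[ℂ] ℂ, (RingHom.ker Ψ).comap (toHeckeC N k) = 𝔭 := by
  obtain ⟨Q, hQ, hQ'⟩ :=
    Ideal.exists_comap_eq_of_mem_minimalPrimes_of_injective (toHeckeC_injective N k) 𝔭 h𝔭
  obtain ⟨Ψ, hΨ⟩ := exists_algHom_of_isPrime Q
  exact ⟨Ψ, by rw [hΨ, hQ']⟩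

/-- **Deligne–Serre lifting**, weight 2, in terms of ideals: assume that the Hecke algebra
`𝕋 = heckeAlgebra N 2 ∅` is finite over `ℤ`. For a maximal ideal `𝔐` of `𝕋` there are a normalised
eigenform `f`, the corresponding character `χ : 𝕋 → ℤ̄` and a maximal ideal `𝔪'` of `ℤ̄` above `𝔐`.
-/
theorem exists_eigenform_of_isMaximal [hfin : Module.Finite ℤ (heckeAlgebra N 2 ∅)]
    (𝔐 : Ideal (heckeAlgebra N 2 ∅)) [h𝔐 : 𝔐.IsMaximal] :
    ∃ (f : CuspForm (Gamma0 N) 2) (_ : f.IsNormalizedEigenform)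
      (χ : heckeAlgebra N 2 ∅ →+* integralClosure ℤ ℂ)
      (𝔪' : Ideal (integralClosure ℤ ℂ)),
      𝔪'.IsMaximal ∧ 𝔪'.comap χ = 𝔐 ∧
      (∀ t : heckeAlgebra N 2 ∅, (t : Module.End ℂ (CuspForm (Gamma0 N) 2)) f = (χ t : ℂ) • f) ∧
      (∀ (p : ℕ) (hp : p.Prime), (χ (heckeElt N 2 hp) : ℂ) = qCoeff f p) := by
  obtain ⟨𝔭, h𝔭, h𝔭𝔐⟩ := Ideal.exists_minimalPrimes_le (I := ⊥) (J := 𝔐) bot_le
  obtain ⟨Ψ, hΨ⟩ := exists_algHom_comap_eq N 2 𝔭 h𝔭
  obtain ⟨f, hf1, hf⟩ := exists_eigenvector_of_algHom N 2 Ψ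
  -- the character on the integral Hecke algebra
  have hint : ∀ t : heckeAlgebra N 2 ∅, IsIntegral ℤ (Ψ (toHeckeC N 2 t)) := fun t => by
    have h1 : IsIntegral ℤ t := Algebra.IsIntegral.isIntegral t
    exact h1.map ((Ψ : heckeC N 2 →+* ℂ).comp (toHeckeC N 2)).toIntAlgHom
  let χ : heckeAlgebra N 2 ∅ →+* integralClosure ℤ ℂ :=
    { toFun := fun t => ⟨Ψ (toHeckeC N 2 t), hint t⟩
      map_one' := Subtype.ext (by simp)
      map_mul' := fun s t => Subtype.ext (by simp)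
      map_zero' := Subtype.ext (by simp)
      map_add' := fun s t => Subtype.ext (by simp) }
  have hχ : ∀ t, (χ t : ℂ) = Ψ (toHeckeC N 2 t) := fun t => rfl
  have heig : ∀ t : heckeAlgebra N 2 ∅,
      (t : Module.End ℂ (CuspForm (Gamma0 N) 2)) f = (χ t : ℂ) • f := fun t => by
    rw [hχ, ← hf, coe_toHeckeC]
  have heig' : ∀ (p : ℕ) (hp : p.Prime), heckeOp N 2 hp f = (χ (heckeElt N 2 hp) : ℂ) • f :=
    fun p hp => heig (heckeElt N 2 hp)
  have hker : RingHom.ker χ ≤ 𝔐 := by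
    refine le_trans (le_of_eq ?_) h𝔭𝔐
    rw [← hΨ]
    ext t
    rw [RingHom.mem_ker, Ideal.mem_comap, RingHom.mem_ker]
    constructor
    · intro h
      rw [← hχ, h]; rfl
    · intro h
      exact Subtype.ext ((hχ t).trans h)
  letI : Algebra (heckeAlgebra N 2 ∅) (integralClosure ℤ ℂ) := χ.toAlgebra
  haveI : IsScalarTower ℤ (heckeAlgebra N 2 ∅) (integralClosure ℤ ℂ) :=
    IsScalarTower.of_algebraMap_eq' (Subsingleton.elim _ _)
  haveI : Algebra.IsIntegral (heckeAlgebra N 2 ∅) (integralClosure ℤ ℂ) :=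
    ⟨fun x => (Algebra.IsIntegral.isIntegral (R := ℤ) x).tower_top⟩
  obtain ⟨𝔪', hmax, hcomap⟩ := Ideal.exists_ideal_over_maximal_of_isIntegral
    (S := integralClosure ℤ ℂ) 𝔐 hker
  refine ⟨f, isNormalizedEigenform_of_eigen N hf1 fun p hp => ⟨_, heig' p hp⟩, χ, 𝔪', hmax,
    hcomap, heig, fun p hp => (qCoeff_prime_of_eigen N 2 hf1 hp (heig' p hp)).symm⟩

/-- The congruence version: `f₀ ∈ L` (the lattice of forms with integral coefficients) is an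
eigenvector modulo a prime `r`, with `a_1(f₀)` not divisible by `r`. -/
theorem exists_eigenform_congruent [hfin : Module.Finite ℤ (heckeAlgebra N 2 ∅)]
    {r : ℕ} (hr : r ≠ 0) (f₀ : CuspForm (Gamma0 N) 2) (c : ℕ → ℤ)
    (hc : ∀ n, qCoeff f₀ n = (c n : ℂ)) (hc1 : ¬ (r : ℤ) ∣ c 1)
    (b : ℕ → ℤ)
    (hb : ∀ (p : ℕ), p.Prime → ∀ n : ℕ, (r : ℤ) ∣
      c (n * p) + (if p ∣ N then 0 else (p : ℤ)) * (if p ∣ n then c (n / p) else 0)
        - b p * c n) :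
    ∃ (f : CuspForm (Gamma0 N) 2) (_ : f.IsNormalizedEigenform)
      (𝔪' : Ideal (integralClosure ℤ ℂ)), 𝔪'.IsMaximal ∧
      (r : integralClosure ℤ ℂ) ∈ 𝔪' ∧
      ∀ (p : ℕ) (_ : p.Prime),
        ∃ x : integralClosure ℤ ℂ, (x : ℂ) = qCoeff f p ∧
          x - (b p : integralClosure ℤ ℂ) ∈ 𝔪' := by
  have hf₀ : f₀ ∈ intLattice N 2 := (mem_intLattice_iff f₀).mpr fun n => ⟨c n, hc n⟩
  -- the ideal of operators `t` with `t f₀ ∈ r L`
  let I : Ideal (heckeAlgebra N 2 ∅) :=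
    { carrier := {t | ∃ g ∈ intLattice N 2,
        (t : Module.End ℂ (CuspForm (Gamma0 N) 2)) f₀ = r • g}
      add_mem' := by
        rintro s t ⟨g, hg, hs⟩ ⟨g', hg', ht⟩
        refine ⟨g + g', add_mem hg hg', ?_⟩
        rw [heckeAlgebra_coe_add, LinearMap.add_apply, hs, ht, smul_add]
      zero_mem' := ⟨0, zero_mem _, by simp⟩
      smul_mem' := by
        rintro s t ⟨g, hg, ht⟩
        refine ⟨(s : Module.End ℂ (CuspForm (Gamma0 N) 2)) g,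
          mem_intLattice_of_mem_heckeAlgebra one_le_two s.2 hg, ?_⟩
        rw [smul_eq_mul, heckeAlgebra_coe_mul, Module.End.mul_apply, ht, map_nsmul] }
  have memI : ∀ t : heckeAlgebra N 2 ∅, t ∈ I ↔ ∃ g ∈ intLattice N 2,
        (t : Module.End ℂ (CuspForm (Gamma0 N) 2)) f₀ = r • g := fun t => Iff.rfl
  have hI1 : I ≠ ⊤ := by
    intro h
    have h1 : (1 : heckeAlgebra N 2 ∅) ∈ I := h ▸ Submodule.mem_top
    obtain ⟨g, hg, hg'⟩ := (memI 1).mp h1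
    obtain ⟨m, hm⟩ := (mem_intLattice_iff g).mp hg 1
    have h2 : f₀ = r • g := hg'
    have h3 := map_nsmul (qCoeffLin N 2 1) r g
    rw [← h2] at h3
    simp only [qCoeffLin_apply, hm, hc, nsmul_eq_mul] at h3
    exact hc1 ⟨m, by exact_mod_cast h3⟩
  have hrI : (r : heckeAlgebra N 2 ∅) ∈ I := by
    rw [memI]
    refine ⟨f₀, hf₀, ?_⟩
    have : ((r : heckeAlgebra N 2 ∅) : Module.End ℂ (CuspForm (Gamma0 N) 2)) = r • 1 := by
      simp
    rw [this, LinearMap.smul_apply, Module.End.one_apply]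
  have hTI : ∀ (p : ℕ) (hp : p.Prime),
      heckeElt N 2 hp - (b p : heckeAlgebra N 2 ∅) ∈ I := by
    intro p hp
    rw [memI]
    -- the form `(T_p f₀ - b_p f₀) / r`
    have hr0 : (r : ℂ) ≠ 0 := by exact_mod_cast hr
    have hcoe : ((heckeElt N 2 hp - (b p : heckeAlgebra N 2 ∅) : heckeAlgebra N 2 ∅) :
        Module.End ℂ (CuspForm (Gamma0 N) 2)) f₀ = heckeOp N 2 hp f₀ - (b p : ℂ) • f₀ := by
      have h1 : ((heckeElt N 2 hp - (b p : heckeAlgebra N 2 ∅) : heckeAlgebra N 2 ∅) :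
        Module.End ℂ (CuspForm (Gamma0 N) 2)) = heckeOp N 2 hp - ((b p : ℂ) • 1) := by
        have h2 : ((b p : heckeAlgebra N 2 ∅) : Module.End ℂ (CuspForm (Gamma0 N) 2))
          = ((b p : ℂ) • 1) := by
          have h3 : ((b p : heckeAlgebra N 2 ∅) : Module.End ℂ (CuspForm (Gamma0 N) 2))
              = (b p : Module.End ℂ (CuspForm (Gamma0 N) 2)) := by simp
          rw [h3]
          ext g
          simp
        rw [← h2]
        rfl
      rw [h1, LinearMap.sub_apply, LinearMap.smul_apply, Module.End.one_apply]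
    refine ⟨(r : ℂ)⁻¹ • (heckeOp N 2 hp f₀ - (b p : ℂ) • f₀), ?_, ?_⟩
    · rw [mem_intLattice_iff]
      intro n
      obtain ⟨m, hm⟩ := hb p hp n
      refine ⟨m, ?_⟩
      have h1 : qCoeff (⇑((r : ℂ)⁻¹ • (heckeOp N 2 hp f₀ - (b p : ℂ) • f₀))) n
          = (r : ℂ)⁻¹ * (qCoeff (⇑(heckeOp N 2 hp f₀)) n - (b p : ℂ) * qCoeff (⇑f₀) n) := by
        show qCoeffLin N 2 n ((r : ℂ)⁻¹ • (heckeOp N 2 hp f₀ - (b p : ℂ) • f₀)) = _
        rw [map_smul, map_sub, map_smul]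
        rfl
      rw [h1, qCoeff_heckeOp, inv_mul_eq_iff_eq_mul₀ hr0]
      simp only [hc]
      have h2 : ((c (n * p) + (if p ∣ N then 0 else (p : ℤ)) * (if p ∣ n then c (n / p) else 0)
        - b p * c n : ℤ) : ℂ) = ((r * m : ℤ) : ℂ) := by rw [hm]
      push_cast at h2
      rw [← h2]
      norm_num
    · rw [hcoe, ← Nat.cast_smul_eq_nsmul ℂ r, smul_smul, mul_inv_cancel₀ hr0, one_smul]
  obtain ⟨𝔐, h𝔐, hI𝔐⟩ := Ideal.exists_le_maximal I hI1
  obtain ⟨f, hf, χ, 𝔪', hmax, hcomap, -, hχ⟩ := exists_eigenform_of_isMaximal N 𝔐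
  refine ⟨f, hf, 𝔪', hmax, ?_, fun p hp => ⟨χ (heckeElt N 2 hp), hχ p hp, ?_⟩⟩
  · have h1 : (r : heckeAlgebra N 2 ∅) ∈ 𝔪'.comap χ := hcomap ▸ hI𝔐 hrI
    rw [Ideal.mem_comap, map_natCast] at h1
    exact h1
  · have h1 : heckeElt N 2 hp - (b p : heckeAlgebra N 2 ∅) ∈ 𝔪'.comap χ :=
      hcomap ▸ hI𝔐 (hTI p hp)
    rw [Ideal.mem_comap, map_sub, map_intCast] at h1
    exact h1

end Fermat.Agent.DSLift
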