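import Mathlib
import Fermat.Prelude.Def_FormalHecke_Eigensystem

set_option autoImplicit false

/-!
# Formal consequences of the Hecke relations
-/

namespace Fermat.Agent.DSLift

open FormalHecke

variable {R : Type*} [CommRing R] {e a : ℕ → R}

lemma eigensystem_mul_of_not_dvd (h : IsEigensystem e a) {ℓ n : ℕ} (hℓ : ℓ.Prime)
    (hn : ¬ ℓ ∣ n) : a (ℓ * n) = a ℓ * a n := by
  have := h.2 ℓ hℓ n
  simpa [hn] using this

lemma eigensystem_pow_mul (h : IsEigensystem e a) {ℓ n : ℕ} (hℓ : ℓ.Prime)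
    (hn : ¬ ℓ ∣ n) (r : ℕ) : a (ℓ ^ (r + 2) * n) = a ℓ * a (ℓ ^ (r + 1) * n) - e ℓ * a (ℓ ^ r * n) := by
  have := h.2 ℓ hℓ (ℓ ^ (r + 1) * n)
  rw [if_pos (by rw [pow_succ, mul_assoc, mul_comm, mul_assoc]; exact dvd_mul_right _ _)] at this
  have h1 : ℓ * (ℓ ^ (r + 1) * n) = ℓ ^ (r + 2) * n := by ring
  have h2 : ℓ ^ (r + 1) * n / ℓ = ℓ ^ r * n := by
    rw [show ℓ ^ (r + 1) * n = ℓ * (ℓ ^ r * n) by ring, Nat.mul_div_cancel_left _ hℓ.pos]
  rw [h1, h2] at this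
  linear_combination this

lemma eigensystem_prime_pow (h : IsEigensystem e a) {ℓ : ℕ} (hℓ : ℓ.Prime) (r : ℕ) :
    a (ℓ ^ (r + 2)) = a ℓ * a (ℓ ^ (r + 1)) - e ℓ * a (ℓ ^ r) := by
  have := eigensystem_pow_mul h (n := 1) hℓ (by simpa using hℓ.one_lt.ne') r
  simpa using this

lemma eigensystem_prime_pow_mul (h : IsEigensystem e a) {ℓ n : ℕ} (hℓ : ℓ.Prime)
    (hn : ¬ ℓ ∣ n) (r : ℕ) : a (ℓ ^ r * n) = a (ℓ ^ r) * a n := by
  induction r using Nat.strong_induction_on with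
  | _ r ih =>
    match r with
    | 0 => simp [h.1]
    | 1 => simpa using eigensystem_mul_of_not_dvd h hℓ hn
    | r + 2 =>
      rw [eigensystem_pow_mul h hℓ hn, eigensystem_prime_pow h hℓ, ih (r + 1) (by omega),
        ih r (by omega)]
      ring

lemma eigensystem_mul_of_coprime (h : IsEigensystem e a) :
    ∀ m n : ℕ, m.Coprime n → a (m * n) = a m * a n := by
  intro m
  induction m using Nat.strong_induction_on with
  | _ m ih =>
    intro n hmn
    rcases Nat.eq_zero_or_pos m with hm0 | hmpos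
    · subst hm0
      have hn : n = 1 := by simpa using hmn
      subst hn
      simp [h.1]
    rcases Nat.eq_or_lt_of_le (Nat.one_le_iff_ne_zero.mpr hmpos.ne') with hm1 | hm1
    · rw [← hm1]; simp [h.1]
    obtain ⟨ℓ, hℓ, hℓm⟩ := Nat.exists_prime_and_dvd hm1.ne'
    obtain ⟨r, m', hm', rfl⟩ := Nat.exists_eq_pow_mul_and_not_dvd hmpos.ne' ℓ hℓ.ne_one
    have hr : r ≠ 0 := by
      rintro rfl
      simp at hℓm
      exact hm' hℓm
    have hm'pos : 0 < m' := Nat.pos_of_ne_zero (by rintro rfl; simp at hmpos)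
    have hlt : m' < ℓ ^ r * m' := by
      have : 1 < ℓ ^ r := Nat.one_lt_pow hr hℓ.one_lt
      nlinarith
    have hcop' : m'.Coprime n := Nat.Coprime.coprime_dvd_left (dvd_mul_left _ _) hmn
    have hℓn : ¬ ℓ ∣ n := fun hd => by
      have h1 : ℓ ∣ Nat.gcd (ℓ ^ r * m') n := Nat.dvd_gcd hℓm hd
      rw [hmn] at h1
      exact hℓ.one_lt.ne' (Nat.dvd_one.mp h1)
    have hℓm'n : ¬ ℓ ∣ m' * n := fun hd => (hℓ.dvd_mul.mp hd).elim hm' hℓn
    rw [mul_assoc, eigensystem_prime_pow_mul h hℓ hℓm'n, ih m' hlt n hcop',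
      eigensystem_prime_pow_mul h hℓ hm', mul_assoc]

lemma isRecursive_of_isEigensystem (h : IsEigensystem e a) : IsRecursive e a :=
  ⟨h.1, eigensystem_mul_of_coprime h, fun ℓ r hℓ => eigensystem_prime_pow h hℓ r⟩

end Fermat.Agent.DSLift
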