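import Fermat.Agent.DSLift.QCoeff
import Fermat.Agent.DSLift.Multiplicative

set_option autoImplicit false

/-!
# Duality between the Hecke algebra (over `ℂ`) and cusp forms of weight 2;
eigenforms attached to characters of the Hecke algebra
-/

noncomputable section

open CongruenceSubgroup ModularFormClass UpperHalfPlane CuspForm

namespace Fermat.Agent.DSLift

variable (N : ℕ) [NeZero N]

/-- The Hecke algebra over `ℂ` (all `T_ℓ`, `U_q`) acting on `S_k(Γ₀(N))`. -/
def heckeC (k : ℤ) : Subalgebra ℂ (Module.End ℂ (CuspForm (Gamma0 N) k)) :=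
  Algebra.adjoin ℂ (heckeGenerators N k ∅)

variable {N} in
lemma heckeOp_mem_heckeC {k : ℤ} {p : ℕ} (hp : p.Prime) : heckeOp N k hp ∈ heckeC N k :=
  Algebra.subset_adjoin (heckeOp_mem_heckeGenerators hp (Set.notMem_empty _))

theorem heckeC_mul_comm (k : ℤ) (s t : heckeC N k) : s * t = t * s :=
  (Algebra.isMulCommutative_adjoin ℂ fun _ hT _ hT' =>
    commute_of_mem_heckeGenerators (N := N) (k := k) (S := ∅) hT hT').is_comm.comm s t

instance heckeC.instCommRing (k : ℤ) : CommRing (heckeC N k) :=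
  { (inferInstance : Ring (heckeC N k)) with
    mul_comm := heckeC_mul_comm N k }

instance heckeC.instFiniteDimensional (k : ℤ) : FiniteDimensional ℂ (heckeC N k) :=
  Module.Finite.of_injective (heckeC N k).val.toLinearMap Subtype.val_injective

lemma heckeAlgebra_le_heckeC (k : ℤ) {t : Module.End ℂ (CuspForm (Gamma0 N) k)}
    (ht : t ∈ heckeAlgebra N k ∅) : t ∈ heckeC N k := by
  refine Algebra.adjoin_induction (fun x hx => Algebra.subset_adjoin hx) ?_ ?_ ?_ ht
  · intro r
    have : (algebraMap ℤ (Module.End ℂ (CuspForm (Gamma0 N) k))) r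
      = algebraMap ℂ (Module.End ℂ (CuspForm (Gamma0 N) k)) (r : ℂ) := by simp
    rw [this]
    exact Subalgebra.algebraMap_mem _ _
  · intro x y _ _ hx hy; exact add_mem hx hy
  · intro x y _ _ hx hy; exact mul_mem hx hy

theorem heckeAlgebra_coe_mul (k : ℤ) (s t : heckeAlgebra N k ∅) :
    ((s * t : heckeAlgebra N k ∅) : Module.End ℂ (CuspForm (Gamma0 N) k)) = s.1 * t.1 := rfl

theorem heckeC_coe_mul (k : ℤ) (s t : heckeC N k) :
    ((s * t : heckeC N k) : Module.End ℂ (CuspForm (Gamma0 N) k)) = s.1 * t.1 := rfl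

theorem heckeAlgebra_coe_add (k : ℤ) (s t : heckeAlgebra N k ∅) :
    ((s + t : heckeAlgebra N k ∅) : Module.End ℂ (CuspForm (Gamma0 N) k)) = s.1 + t.1 := rfl

theorem heckeC_coe_add (k : ℤ) (s t : heckeC N k) :
    ((s + t : heckeC N k) : Module.End ℂ (CuspForm (Gamma0 N) k)) = s.1 + t.1 := rfl

/-- inclusion of the integral Hecke algebra in the complex one -/
def toHeckeC (k : ℤ) : heckeAlgebra N k ∅ →+* heckeC N k where
  toFun t := ⟨t.1, heckeAlgebra_le_heckeC N k t.2⟩
  map_one' := Subtype.ext rfl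
  map_mul' s t := Subtype.ext
    ((heckeAlgebra_coe_mul N k s t).trans (heckeC_coe_mul N k ⟨s.1, _⟩ ⟨t.1, _⟩).symm)
  map_zero' := Subtype.ext rfl
  map_add' s t := Subtype.ext
    ((heckeAlgebra_coe_add N k s t).trans (heckeC_coe_add N k ⟨s.1, _⟩ ⟨t.1, _⟩).symm)

lemma toHeckeC_apply (k : ℤ) (t : heckeAlgebra N k ∅) :
    toHeckeC N k t = ⟨t.1, heckeAlgebra_le_heckeC N k t.2⟩ := rfl

lemma toHeckeC_injective (k : ℤ) : Function.Injective (toHeckeC N k) := fun a b h => by
  rw [toHeckeC_apply, toHeckeC_apply] at h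
  exact Subtype.ext (Subtype.mk.inj h)

lemma coe_toHeckeC (k : ℤ) (t : heckeAlgebra N k ∅) :
    ((toHeckeC N k t : heckeC N k) : Module.End ℂ (CuspForm (Gamma0 N) k)) = t.1 := by
  rw [toHeckeC_apply]

/-- Every q-coefficient is `a_1` of a Hecke operator. -/
lemma exists_heckeC_qCoeff (k : ℤ) (n : ℕ) : ∃ t : heckeC N k, ∀ f : CuspForm (Gamma0 N) k,
    qCoeff f n = qCoeff ((t : Module.End ℂ (CuspForm (Gamma0 N) k)) f) 1 := by
  induction n using Nat.strong_induction_on with
  | _ n ih =>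
    rcases Nat.eq_zero_or_pos n with hn0 | hnpos
    · subst hn0
      refine ⟨0, fun f => ?_⟩
      rw [qCoeff_zero_eq]
      exact (map_zero (qCoeffLin N k 1)).symm
    rcases Nat.eq_or_lt_of_le (Nat.one_le_iff_ne_zero.mpr hnpos.ne') with hn1 | hn1
    · subst hn1
      exact ⟨1, fun f => rfl⟩
    obtain ⟨p, hp, m, rfl⟩ := Nat.exists_prime_and_dvd hn1.ne'
    have hmpos : 0 < m := Nat.pos_of_ne_zero (by rintro rfl; simp at hnpos)
    obtain ⟨t, ht⟩ := ih m (by nlinarith [hp.two_le])
    set c : ℂ := (if p ∣ N then 0 else (p : ℂ) ^ (k - 1)) with hc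
    by_cases hpm : p ∣ m
    · obtain ⟨t', ht'⟩ := ih (m / p) ((Nat.div_le_self _ _).trans_lt (by nlinarith [hp.two_le]))
      refine ⟨t * ⟨heckeOp N k hp, heckeOp_mem_heckeC hp⟩ - c • t', fun f => ?_⟩
      have h1 := qCoeff_heckeOp (k := k) hp f m
      rw [if_pos hpm, ← hc, ht, ht' f] at h1
      have h2 : qCoeff f (p * m) = qCoeff ((t : Module.End ℂ (CuspForm (Gamma0 N) k))
          (heckeOp N k hp f)) 1 - c * qCoeff ((t' : Module.End ℂ (CuspForm (Gamma0 N) k)) f) 1 := by
        rw [mul_comm p m]; linear_combination -h1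
      rw [h2]
      have h3 : ((t * ⟨heckeOp N k hp, heckeOp_mem_heckeC hp⟩ - c • t' : heckeC N k) :
          Module.End ℂ (CuspForm (Gamma0 N) k)) f
          = (t : Module.End ℂ (CuspForm (Gamma0 N) k)) (heckeOp N k hp f)
            - c • (t' : Module.End ℂ (CuspForm (Gamma0 N) k)) f := rfl
      rw [h3]
      have h4 := map_sub (qCoeffLin N k 1)
        ((t : Module.End ℂ (CuspForm (Gamma0 N) k)) (heckeOp N k hp f))
        (c • (t' : Module.End ℂ (CuspForm (Gamma0 N) k)) f)
      rw [map_smul] at h4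
      simp only [qCoeffLin_apply, smul_eq_mul] at h4
      rw [h4]
    · refine ⟨t * ⟨heckeOp N k hp, heckeOp_mem_heckeC hp⟩, fun f => ?_⟩
      have h1 := qCoeff_heckeOp (k := k) hp f m
      rw [if_neg hpm, mul_zero, add_zero, mul_comm m p] at h1
      rw [← h1, ht]
      rfl

/-- the pairing `(T, f) ↦ a_1(T f)`, as a map from forms to functionals on the Hecke algebra -/
def formToDual (k : ℤ) : CuspForm (Gamma0 N) k →ₗ[ℂ] Module.Dual ℂ (heckeC N k) where
  toFun f :=
    { toFun := fun t => qCoeffLin N k 1 ((t : Module.End ℂ (CuspForm (Gamma0 N) k)) f)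
      map_add' := fun s t => by
        show qCoeffLin N k 1 ((s : Module.End ℂ (CuspForm (Gamma0 N) k)) f +
          (t : Module.End ℂ (CuspForm (Gamma0 N) k)) f) = _
        rw [map_add]
      map_smul' := fun c t => by
        show qCoeffLin N k 1 (c • (t : Module.End ℂ (CuspForm (Gamma0 N) k)) f) = _
        rw [map_smul]; rfl }
  map_add' f g := by
    ext t
    show qCoeffLin N k 1 ((t : Module.End ℂ (CuspForm (Gamma0 N) k)) (f + g)) = _
    rw [map_add, map_add]; rfl
  map_smul' c f := by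
    ext t
    show qCoeffLin N k 1 ((t : Module.End ℂ (CuspForm (Gamma0 N) k)) (c • f)) = _
    rw [map_smul, map_smul]; rfl

lemma formToDual_apply (k : ℤ) (f : CuspForm (Gamma0 N) k) (t : heckeC N k) :
    formToDual N k f t = qCoeff ((t : Module.End ℂ (CuspForm (Gamma0 N) k)) f) 1 := rfl

lemma formToDual_injective (k : ℤ) : Function.Injective (formToDual N k) := by
  refine (injective_iff_map_eq_zero _).mpr fun f hf => ?_
  apply eq_zero_of_qCoeff_eq_zero
  intro n
  obtain ⟨t, ht⟩ := exists_heckeC_qCoeff N k n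
  rw [ht, ← formToDual_apply, hf]; rfl

/-- the flipped pairing -/
def heckeToDual (k : ℤ) : heckeC N k →ₗ[ℂ] Module.Dual ℂ (CuspForm (Gamma0 N) k) :=
  (formToDual N k).flip

lemma heckeToDual_apply (k : ℤ) (f : CuspForm (Gamma0 N) k) (t : heckeC N k) :
    heckeToDual N k t f = qCoeff ((t : Module.End ℂ (CuspForm (Gamma0 N) k)) f) 1 := rfl

lemma heckeToDual_injective (k : ℤ) : Function.Injective (heckeToDual N k) := by
  refine (injective_iff_map_eq_zero _).mpr fun t ht => ?_
  apply Subtype.ext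
  ext1 f
  show (t : Module.End ℂ (CuspForm (Gamma0 N) k)) f = 0
  apply formToDual_injective N k
  rw [map_zero]
  ext s
  rw [formToDual_apply]
  show qCoeff (((s * t : heckeC N k) : Module.End ℂ (CuspForm (Gamma0 N) k)) f) 1 = _
  rw [mul_comm s t]
  show qCoeff ((t : Module.End ℂ (CuspForm (Gamma0 N) k))
    ((s : Module.End ℂ (CuspForm (Gamma0 N) k)) f)) 1 = _
  rw [← heckeToDual_apply, ht]; rfl

lemma finrank_eq (k : ℤ) :
    Module.finrank ℂ (CuspForm (Gamma0 N) k) = Module.finrank ℂ (heckeC N k) := by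
  apply le_antisymm
  · have := LinearMap.finrank_le_finrank_of_injective (formToDual_injective N k)
    rwa [Subspace.dual_finrank_eq] at this
  · have := LinearMap.finrank_le_finrank_of_injective (heckeToDual_injective N k)
    rwa [Subspace.dual_finrank_eq] at this

lemma formToDual_surjective (k : ℤ) : Function.Surjective (formToDual N k) := by
  have h : Module.finrank ℂ (CuspForm (Gamma0 N) k) = Module.finrank ℂ
      (Module.Dual ℂ (heckeC N k)) := by
    rw [Subspace.dual_finrank_eq, finrank_eq]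
  exact (LinearMap.injective_iff_surjective_of_finrank_eq_finrank h).mp (formToDual_injective N k)

/-- A character of the complex Hecke algebra gives a normalised eigenvector. -/
theorem exists_eigenvector_of_algHom (k : ℤ) (Ψ : heckeC N k →ₐ[ℂ] ℂ) :
    ∃ f : CuspForm (Gamma0 N) k, qCoeff f 1 = 1 ∧
      ∀ t : heckeC N k, (t : Module.End ℂ (CuspForm (Gamma0 N) k)) f = Ψ t • f := by
  obtain ⟨f, hf⟩ := formToDual_surjective N k Ψ.toLinearMap
  have hf' : ∀ t : heckeC N k,
      qCoeff ((t : Module.End ℂ (CuspForm (Gamma0 N) k)) f) 1 = Ψ t := fun t => by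
    rw [← formToDual_apply, hf]; rfl
  refine ⟨f, ?_, fun t => ?_⟩
  · have := hf' 1
    rwa [map_one] at this
  · apply formToDual_injective N k
    ext s
    rw [map_smul, LinearMap.smul_apply, formToDual_apply, formToDual_apply, hf' s]
    show qCoeff (((s * t : heckeC N k) : Module.End ℂ (CuspForm (Gamma0 N) k)) f) 1 = _
    rw [hf', map_mul, smul_eq_mul, mul_comm]

/-- A normalised eigenvector of all Hecke operators of weight 2 is a normalised eigenform, and
`a_p` is the eigenvalue. -/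
theorem qCoeff_prime_of_eigen (k : ℤ) {f : CuspForm (Gamma0 N) k} (h1 : qCoeff f 1 = 1)
    {p : ℕ} (hp : p.Prime) {c : ℂ} (hc : heckeOp N k hp f = c • f) : qCoeff f p = c := by
  have h2 := qCoeff_heckeOp (k := k) hp f 1
  rw [hc] at h2
  have h3 : qCoeff (⇑(c • f)) 1 = c := by
    have := map_smul (qCoeffLin N k 1) c f
    simp only [qCoeffLin_apply, smul_eq_mul] at this
    rw [this, h1, mul_one]
  rw [h3, if_neg (by simpa using hp.one_lt.ne' : ¬ p ∣ 1), mul_zero, add_zero, one_mul] at h2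
  exact h2.symm

theorem isEigensystem_of_eigen (k : ℤ) {f : CuspForm (Gamma0 N) k} (h1 : qCoeff f 1 = 1)
    (h : ∀ (p : ℕ) (hp : p.Prime), ∃ c : ℂ, heckeOp N k hp f = c • f) :
    FormalHecke.IsEigensystem (fun p => if p ∣ N then 0 else (p : ℂ) ^ (k - 1))
      (fun n => qCoeff f n) := by
  refine ⟨h1, fun p hp n => ?_⟩
  obtain ⟨c, hc⟩ := h p hp
  have h2 := qCoeff_prime_of_eigen N k h1 hp hc
  have h3 := qCoeff_heckeOp (k := k) hp f n
  rw [hc] at h3
  have h4 : qCoeff (⇑(c • f)) n = c * qCoeff f n := by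
    have := map_smul (qCoeffLin N k n) c f
    simpa only [qCoeffLin_apply, smul_eq_mul] using this
  rw [h4, ← h2] at h3
  rw [h3, mul_comm p n]

theorem isNormalizedEigenform_of_eigen {f : CuspForm (Gamma0 N) 2} (h1 : qCoeff f 1 = 1)
    (h : ∀ (p : ℕ) (hp : p.Prime), ∃ c : ℂ, heckeOp N 2 hp f = c • f) :
    f.IsNormalizedEigenform := by
  have he := isRecursive_of_isEigensystem (isEigensystem_of_eigen N 2 h1 h)
  refine ⟨h1, he.2.1, fun p r hp hpN => ?_, fun p r hp hpN => ?_⟩
  · have := he.2.2 p r hp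
    simp only [hpN, if_false] at this
    rw [this]; norm_num
  · have := he.2.2 p r hp
    simp only [hpN, if_true, zero_mul, sub_zero] at this
    rw [this]

/-- Conversely a normalised eigenform of weight 2 is an eigenvector of all Hecke operators. -/
theorem heckeOp_apply_of_isNormalizedEigenform {f : CuspForm (Gamma0 N) 2}
    (hf : f.IsNormalizedEigenform) {p : ℕ} (hp : p.Prime) :
    heckeOp N 2 hp f = qCoeff f p • f := by
  apply ext_qCoeff
  intro n
  rw [qCoeff_heckeOp]
  have h4 : qCoeff (⇑(qCoeff f p • f)) n = qCoeff f p * qCoeff f n := by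
    have := map_smul (qCoeffLin N 2 n) (qCoeff f p) f
    simpa only [qCoeffLin_apply, smul_eq_mul] using this
  rw [h4]
  rcases Nat.eq_zero_or_pos n with hn | hn
  · subst hn; simp [qCoeff_zero_eq]
  obtain ⟨r, m, hm, rfl⟩ := Nat.exists_eq_pow_mul_and_not_dvd hn.ne' p hp.ne_one
  have hcop : ∀ s, (p ^ s).Coprime m := fun s =>
    Nat.Coprime.pow_left s ((Nat.Prime.coprime_iff_not_dvd hp).mpr hm)
  match r with
  | 0 =>
    rw [pow_zero, one_mul, if_neg hm, mul_zero, add_zero, mul_comm m p,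
      hf.qCoeff_mul_of_coprime p m (by simpa using hcop 1)]
  | r + 1 =>
    have e1 : p ^ (r + 1) * m * p = p ^ (r + 2) * m := by ring
    have e2 : p ^ (r + 1) * m / p = p ^ r * m := by
      rw [show p ^ (r + 1) * m = p * (p ^ r * m) by ring, Nat.mul_div_cancel_left _ hp.pos]
    rw [e1, e2, if_pos (dvd_mul_of_dvd_left (dvd_pow_self p (Nat.succ_ne_zero r)) m),
      hf.qCoeff_mul_of_coprime _ m (hcop _), hf.qCoeff_mul_of_coprime _ m (hcop _),
      hf.qCoeff_mul_of_coprime _ m (hcop _)]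
    by_cases hpN : p ∣ N
    · rw [if_pos hpN, hf.qCoeff_prime_pow_of_dvd p r hp hpN]; ring
    · rw [if_neg hpN, hf.qCoeff_prime_pow_of_not_dvd p r hp hpN]
      norm_num
      ring

end Fermat.Agent.DSLift
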